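import Fermat.Agent.S38.H483.IACorG
import Fermat.Agent.S59.H105.NatLoc

/-!
# Row HARD, cell HECKE, layer 3, leaf IA-CTRL: naturality + final glue (helper483)

`IACtrlStatement` (`Hecke/Spec3.lean`) asks for `π : V ↠ V₀` with kernel `I_Δ V`, where
`V ⊆ X_K(𝒪)` (`K = Γ₀(N_min) ∩ Γ_H(Piv ∪ Q)`, level `M`) and `V₀ ⊆ X_{Γ₀(L)}(𝒪)` are the
localisations.  Cut:

* COR (`IACorG.lean`): `cor : V ↠ W`, kernel `I_Δ V`, `W` the localisation of `X_{Γ₀(M)}(𝒪)`;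
* NAT (this file, `nat_cor_G483`, `nat_res_G483`): `cor V ⊆ W`, `res W ⊆ V`
  (helper105's `nat_of_isLocPart`);
* CHAIN (`IAChainStatement`, owner helper299 on helper105's `one_step`): `W ≅ V₀`, the
  Taylor–Wiles chain at the levels `Γ₀(L ∏_{j<i} q_j)`;
* glue (this file): `iaCtrl_of_chain483 : IdemStatement → IAFreeStatement → IAChainStatement →
  IACtrlStatement`.
-/

set_option autoImplicit false

open IsLocalRing CongruenceSubgroup
open scoped MatrixGroups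

namespace Fermat.Agent.S38.H483

open Fermat.Agent.S59.Arch Fermat.Agent.S59.TW.H959 Fermat.Agent.S59.TW Fermat.Agent.S59.H765
open Fermat.Agent.S59.TW.H653 Fermat.Agent.S59.TW.Aut Fermat.Agent.S59.MFree
open Fermat.Agent.S59.TW.Aut.H762 Fermat.Agent.S59.H105
open Fermat.Agent.S38.IA Fermat.Agent.S38.IA.Hecke
open CuspForm

/-! ## NAT: `cor` and `res` respect the localisations -/

section Nat

variable {𝒪 : Type} [CommRing 𝒪] [IsDomain 𝒪] [IsDiscreteValuationRing 𝒪]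
  [IsAdicComplete (maximalIdeal 𝒪) 𝒪]
  (p N₀ : ℕ) {ι : Type} [Fintype ι] (qq : ι → ℕ)

/-- `cor : X_K(𝒪) → X_{Γ₀(M)}(𝒪)`, `𝒪`-linear. -/
noncomputable def corG483 :
    (Additive (KG p N₀ qq) →+ 𝒪) →ₗ[𝒪] (Additive (Gamma0 (gLevel N₀ qq)) →+ 𝒪) :=
  corLin_h762 (gKappa p N₀ qq) 𝒪

theorem corG483_apply (x : Additive (KG p N₀ qq) →+ 𝒪) :
    corG483 (𝒪 := 𝒪) p N₀ qq x = coresK (isMid_KG p N₀ qq).le x := rfl

/-- `res : X_{Γ₀(M)}(𝒪) → X_K(𝒪)`, `𝒪`-linear. -/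
noncomputable def resG483 :
    (Additive (Gamma0 (gLevel N₀ qq)) →+ 𝒪) →ₗ[𝒪] (Additive (KG p N₀ qq) →+ 𝒪) :=
  resLin_h762 (gKappa p N₀ qq) 𝒪

theorem resG483_apply (y : Additive (Gamma0 (gLevel N₀ qq)) →+ 𝒪) :
    resG483 (𝒪 := 𝒪) p N₀ qq y = resK (isMid_KG p N₀ qq).le y := rfl

/-- `cor` maps the localisation of `X_K(𝒪)` into the localisation of `X_{Γ₀(M)}(𝒪)`. -/
theorem nat_cor_G483 (hM : gLevel N₀ qq ≠ 0) {Tset Uset : Set (ℕ × 𝒪)}
    (hT : ∀ x ∈ Tset, x.1.Prime ∧ ¬ x.1 ∣ gLevel N₀ qq)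
    (hU : ∀ x ∈ Uset, x.1.Prime ∧ x.1 ∣ gLevel N₀ qq)
    {V : Submodule 𝒪 (Additive (KG p N₀ qq) →+ 𝒪)}
    (hV : IsLocPart (isMid_KG p N₀ qq) Tset Uset V)
    {W : Submodule 𝒪 (Additive (Gamma0 (gLevel N₀ qq)) →+ 𝒪)}
    (hW : IsLocPart (isMid_Gamma0 (gLevel N₀ qq)) Tset Uset W) :
    ∀ x ∈ V, coresK (isMid_KG p N₀ qq).le x ∈ W := by
  have key := nat_of_isLocPart hM (isMid_KG p N₀ qq) (isMid_Gamma0 (gLevel N₀ qq)) hV hW
    subset_rfl subset_rfl hT hU hT hU (corG483 p N₀ qq) (by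
      rintro (i | i) x
      · haveI : Fact i.1.1.Prime := ⟨(hT i.1 i.2).1⟩
        show corG483 p N₀ qq
            (shiftE 𝒪 (TKL (isMid_KG p N₀ qq) 𝒪 (hT i.1 i.2).2) i.1.2 x) =
          shiftE 𝒪 (TKL (isMid_Gamma0 (gLevel N₀ qq)) 𝒪 (hT i.1 i.2).2) i.1.2
            (corG483 p N₀ qq x)
        rw [shiftE_apply, shiftE_apply, map_sub, map_smul]
        congr 1
        exact coresK_TK_G483 p N₀ qq (hT i.1 i.2).2 x
      · haveI : Fact i.1.1.Prime := ⟨(hU i.1 i.2).1⟩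
        show corG483 p N₀ qq
            (shiftE 𝒪 (UKL (isMid_KG p N₀ qq) 𝒪 (hU i.1 i.2).2) i.1.2 x) =
          shiftE 𝒪 (UKL (isMid_Gamma0 (gLevel N₀ qq)) 𝒪 (hU i.1 i.2).2) i.1.2
            (corG483 p N₀ qq x)
        rw [shiftE_apply, shiftE_apply, map_sub, map_smul]
        congr 1
        exact coresK_UK_G483 p N₀ qq (hU i.1 i.2).2 x)
  exact key

/-- `res` maps the localisation of `X_{Γ₀(M)}(𝒪)` into the localisation of `X_K(𝒪)`. -/
theorem nat_res_G483 (hM : gLevel N₀ qq ≠ 0) {Tset Uset : Set (ℕ × 𝒪)}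
    (hT : ∀ x ∈ Tset, x.1.Prime ∧ ¬ x.1 ∣ gLevel N₀ qq)
    (hU : ∀ x ∈ Uset, x.1.Prime ∧ x.1 ∣ gLevel N₀ qq)
    {V : Submodule 𝒪 (Additive (KG p N₀ qq) →+ 𝒪)}
    (hV : IsLocPart (isMid_KG p N₀ qq) Tset Uset V)
    {W : Submodule 𝒪 (Additive (Gamma0 (gLevel N₀ qq)) →+ 𝒪)}
    (hW : IsLocPart (isMid_Gamma0 (gLevel N₀ qq)) Tset Uset W) :
    ∀ y ∈ W, resK (isMid_KG p N₀ qq).le y ∈ V := by
  have key := nat_of_isLocPart hM (isMid_Gamma0 (gLevel N₀ qq)) (isMid_KG p N₀ qq) hW hV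
    subset_rfl subset_rfl hT hU hT hU (resG483 p N₀ qq) (by
      rintro (i | i) x
      · haveI : Fact i.1.1.Prime := ⟨(hT i.1 i.2).1⟩
        show resG483 p N₀ qq
            (shiftE 𝒪 (TKL (isMid_Gamma0 (gLevel N₀ qq)) 𝒪 (hT i.1 i.2).2) i.1.2 x) =
          shiftE 𝒪 (TKL (isMid_KG p N₀ qq) 𝒪 (hT i.1 i.2).2) i.1.2
            (resG483 p N₀ qq x)
        rw [shiftE_apply, shiftE_apply, map_sub, map_smul]
        congr 1
        exact (resK_TK (isMid_Gamma0 (gLevel N₀ qq)) (isMid_KG p N₀ qq)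
          (isMid_KG p N₀ qq).le (hT i.1 i.2).2 x).symm
      · haveI : Fact i.1.1.Prime := ⟨(hU i.1 i.2).1⟩
        show resG483 p N₀ qq
            (shiftE 𝒪 (UKL (isMid_Gamma0 (gLevel N₀ qq)) 𝒪 (hU i.1 i.2).2) i.1.2 x) =
          shiftE 𝒪 (UKL (isMid_KG p N₀ qq) 𝒪 (hU i.1 i.2).2) i.1.2
            (resG483 p N₀ qq x)
        rw [shiftE_apply, shiftE_apply, map_sub, map_smul]
        congr 1
        exact (resK_UK (isMid_Gamma0 (gLevel N₀ qq)) (isMid_KG p N₀ qq)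
          (isMid_KG p N₀ qq).le (hU i.1 i.2).2 x).symm)
  exact key

end Nat

end Fermat.Agent.S38.H483

namespace Fermat.Agent.S38.H483

open Fermat.Agent.S59.Arch Fermat.Agent.S59.TW.H959 Fermat.Agent.S59.TW Fermat.Agent.S59.H765
open Fermat.Agent.S59.TW.H653 Fermat.Agent.S59.TW.Aut Fermat.Agent.S59.MFree
open Fermat.Agent.S59.TW.Aut.H762 Fermat.Agent.S59.H105
open Fermat.Agent.S38.IA Fermat.Agent.S38.IA.Hecke
open CuspForm

/-! ## The combined family -/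

section Family

variable {k r : ℕ} {pv : Fin k → ℕ} {qv : Fin r → ℕ}

theorem pairU_eta483 (a : ∀ s : Fin k ⊕ Fin r, (ZMod (Sum.elim pv qv s))ˣ) :
    pairU (pv := pv) (qv := qv) (fun i => a (.inl i)) (fun j => a (.inr j)) = a := by
  funext s
  cases s <;> rfl

theorem sumElim_prime483 (hpv : ∀ i, (pv i).Prime) (hqv : ∀ j, (qv j).Prime) :
    ∀ s, (Sum.elim pv qv s).Prime := by
  rintro (i | j)
  · exact hpv i
  · exact hqv j

theorem sumElim_injective483 (hpv : Function.Injective pv) (hqv : Function.Injective qv)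
    (hdisj : ∀ i j, pv i ≠ qv j) : Function.Injective (Sum.elim pv qv) := by
  rintro (i | j) (i' | j') h
  · exact congrArg Sum.inl (hpv h)
  · exact absurd h (hdisj i j')
  · exact absurd h.symm (hdisj i' j)
  · exact congrArg Sum.inr (hqv h)

/-- The index map of `IAFreeAt` is a bijection onto `Δ`. -/
theorem pairEps_bijective483 (p : ℕ) [Fact p.Prime] (hpv : ∀ i, (pv i).Prime)
    (hqv : ∀ j, (qv j).Prime)
    (g₁ : ∀ i : Fin k, (ZMod (pv i))ˣ) (g₂ : ∀ j : Fin r, (ZMod (qv j))ˣ)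
    (hg₁ : ∀ i, orderOf (g₁ i) = pv i - 1) (hg₂ : ∀ j, orderOf (g₂ j) = qv j - 1) :
    Function.Bijective (fun e : (∀ i : Fin k, Fin (p ^ padicValNat p (pv i - 1))) ×
        (∀ j : Fin r, Fin (p ^ padicValNat p (qv j - 1))) =>
      (QuotientGroup.mk (pairU (pv := pv) (qv := qv) (fun i => g₁ i ^ (e.1 i : ℕ))
        (fun j => g₂ j ^ (e.2 j : ℕ))) : GDelta p (Sum.elim pv qv))) := by
  have hg : ∀ s, orderOf (pairU (pv := pv) (qv := qv) g₁ g₂ s) = Sum.elim pv qv s - 1 := by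
    rintro (i | j)
    · exact hg₁ i
    · exact hg₂ j
  have hbij := gEps_bijective483 p (Sum.elim pv qv) (sumElim_prime483 hpv hqv)
    (pairU g₁ g₂) hg
  -- the boxes
  let T : ((∀ i : Fin k, Fin (p ^ padicValNat p (pv i - 1))) ×
        (∀ j : Fin r, Fin (p ^ padicValNat p (qv j - 1)))) →
      (∀ s : Fin k ⊕ Fin r, Fin (p ^ padicValNat p (Sum.elim pv qv s - 1))) :=
    fun e s => match s with
      | .inl i => e.1 i
      | .inr j => e.2 j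
  have hT : Function.Bijective T := by
    constructor
    · intro e e' h
      refine Prod.ext ?_ ?_
      · funext i
        exact congrFun h (.inl i)
      · funext j
        exact congrFun h (.inr j)
    · intro f
      refine ⟨(fun i => f (.inl i), fun j => f (.inr j)), ?_⟩
      funext s
      cases s <;> rfl
  have hcomp : (fun e : (∀ i : Fin k, Fin (p ^ padicValNat p (pv i - 1))) ×
        (∀ j : Fin r, Fin (p ^ padicValNat p (qv j - 1))) =>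
      (QuotientGroup.mk (pairU (pv := pv) (qv := qv) (fun i => g₁ i ^ (e.1 i : ℕ))
        (fun j => g₂ j ^ (e.2 j : ℕ))) : GDelta p (Sum.elim pv qv))) =
      gEps483 p (Sum.elim pv qv) (pairU g₁ g₂) ∘ T := by
    funext e
    unfold gEps483
    simp only [Function.comp_apply]
    congr 1
    funext s
    cases s <;> rfl
  rw [hcomp]
  exact hbij.comp hT

end Family

/-! ## The chain and the glue -/

/-- **CHAIN** (the Taylor–Wiles chain at the `Γ₀`-levels): the localisation `W` of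
`X_{Γ₀(M)}(𝒪)`, `M = N_min ∏ pv ∏ qv = L ∏ qv`, at `(T_ℓ - c_ℓ (ℓ ∉ Σ_Q), U_{q_j} - α_j)` is
isomorphic to the localisation `V₀` of `X_{Γ₀(L)}(𝒪)` at `θ₀`.
(Iterate `H105.one_step` over the Taylor–Wiles primes; owner helper299.) -/
def IAChainStatement : Prop :=
  ∀ (p : ℕ) [Fact p.Prime] (_hp5 : 5 ≤ p)
    (𝒪 : Type) [CommRing 𝒪] [IsDomain 𝒪] [IsDiscreteValuationRing 𝒪]
    [IsAdicComplete (maximalIdeal 𝒪) 𝒪] [Finite (ResidueField 𝒪)] [CharZero 𝒪]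
    (ρbar : ResidualGaloisRep (ResidueField 𝒪)) (Smin : Finset ℕ)
    (_h : ResidualHyp p 𝒪 ρbar Smin)
    (_hflat : (GaloisRepAdic.ofResidualGaloisRep ρbar).IsFlatAt p)
    (Piv : Finset ℕ) (_hPiv : IsPivotSet p ρbar Smin Piv)
    [NeZero (ribetLevel p Smin Piv)]
    (θ₀ : CuspForm.heckeAlgebra (ribetLevel p Smin Piv) 2 (↑(Smin ∪ Piv) : Set ℕ) →+*
      ResidueField 𝒪)
    (_hθ₀ : Fermat.Agent.S59.G4.ResFrobCond ρbar θ₀)
    (k : ℕ) (pv : Fin k → ℕ) (_hpv : Function.Injective pv)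
    (_hpvPiv : Finset.univ.image pv = Piv)
    (n r : ℕ) (qv : Fin r → ℕ) (_hq : IsTWSet p ρbar (Smin ∪ Piv) n qv)
    [NeZero (wilesLevel p .flat Smin (Smin ∪ Piv ∪ Finset.univ.image qv))]
    (hp : LevelPair (ribetLevel p Smin Piv)
      (wilesLevel p .flat Smin (Smin ∪ Piv ∪ Finset.univ.image qv))
      (↑(Smin ∪ Piv) : Set ℕ) (↑(Smin ∪ Piv ∪ Finset.univ.image qv) : Set ℕ))
    (PQ : HeckePkg p 𝒪 ρbar .flat Smin (Smin ∪ Piv ∪ Finset.univ.image qv))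
    (_hθ : PQ.θ = θ₀.comp (oldRestrict hp))
    (α : Fin r → 𝒪) (_hα : IsFrobLift ρbar qv α)
    (V₀ : Submodule 𝒪 (Additive (Gamma0 (ribetLevel p Smin Piv)) →+ 𝒪))
    (W : Submodule 𝒪 (Additive (Gamma0 (MIA p Smin pv qv)) →+ 𝒪)),
    IsIAMinPart θ₀ V₀ →
    IsLocPart (isMid_Gamma0 (MIA p Smin pv qv)) (TsetOf PQ) (UsetOf qv α) W →
    ∃ f : W →ₗ[𝒪] V₀, Function.Bijective f

/-- The primes dividing the Betti level `M = N_min ∏ pv ∏ qv` lie in `Smin ∪ Piv ∪ Q`. -/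
theorem mem_of_dvd_MIA483 {p : ℕ} {Smin Piv : Finset ℕ} {k r : ℕ} {pv : Fin k → ℕ}
    {qv : Fin r → ℕ} (hS : ∀ q ∈ Smin, q.Prime)
    (hpv : ∀ i, (pv i).Prime) (hqv : ∀ j, (qv j).Prime)
    (hpvPiv : Finset.univ.image pv = Piv) {ℓ : ℕ} (hℓ : ℓ.Prime)
    (hdvd : ℓ ∣ MIA p Smin pv qv) : ℓ ∈ (↑(Smin ∪ Piv ∪ Finset.univ.image qv) : Set ℕ) := by
  rw [Finset.mem_coe, Finset.mem_union, Finset.mem_union]
  unfold MIA gLevel at hdvd
  rcases (Nat.Prime.dvd_mul hℓ).mp hdvd with h | h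
  · refine Or.inl (Or.inl ?_)
    unfold wilesLevel at h
    rw [Finset.sdiff_self, Finset.prod_empty, mul_one, mul_one] at h
    obtain ⟨a, ha, hqa⟩ := (Prime.dvd_finsetProd_iff hℓ.prime _).mp h
    have ha' : a ∈ Smin := Finset.mem_of_mem_erase ha
    have : ℓ = a := (Nat.prime_dvd_prime_iff_eq hℓ (hS a ha')).mp hqa
    exact this ▸ ha'
  · obtain ⟨s, -, hs⟩ := (Prime.dvd_finsetProd_iff hℓ.prime _).mp h
    rcases s with i | j
    · have h1 : ℓ = pv i := (Nat.prime_dvd_prime_iff_eq hℓ (hpv i)).mp hs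
      refine Or.inl (Or.inr ?_)
      rw [← hpvPiv, h1]
      exact Finset.mem_image_of_mem pv (Finset.mem_univ i)
    · have h1 : ℓ = qv j := (Nat.prime_dvd_prime_iff_eq hℓ (hqv j)).mp hs
      refine Or.inr ?_
      rw [h1]
      exact Finset.mem_image_of_mem qv (Finset.mem_univ j)

theorem wilesLevel_min_ne_zero483 {p : ℕ} {Smin : Finset ℕ} (hS : ∀ q ∈ Smin, q.Prime) :
    wilesLevel p .flat Smin Smin ≠ 0 := by
  unfold wilesLevel
  rw [Finset.sdiff_self, Finset.prod_empty, mul_one, mul_one]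
  exact Finset.prod_ne_zero_iff.mpr fun q hq => (hS q (Finset.mem_of_mem_erase hq)).ne_zero

/-- **IA-CTRL from the chain.** -/
theorem iaCtrl_of_chain483 (idem : IdemStatement) (hfree : IAFreeStatement)
    (hchain : IAChainStatement) : IACtrlStatement := by
  intro p _ hp5 𝒪 _ _ _ _ _ _ ρbar Smin h hflat Piv hPiv _ θ₀ hθ₀ k pv hpv hpvPiv n r qv hq _
    hp PQ hθ α hα V₀ V hV₀ hV
  classical
  -- the family
  have hpvP : ∀ i, (pv i).Prime := fun i =>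
    (hPiv (pv i) (by rw [← hpvPiv]; exact Finset.mem_image_of_mem pv (Finset.mem_univ i))).1
  have hqvP : ∀ j, (qv j).Prime := fun j => (hq.2.1 j).1
  have hdisj : ∀ i j, pv i ≠ qv j := by
    intro i j hij
    have h1 : pv i ∈ Piv := by
      rw [← hpvPiv]; exact Finset.mem_image_of_mem pv (Finset.mem_univ i)
    exact (hq.2.1 j).2.1 (Finset.mem_union_right Smin (hij ▸ h1))
  have hprime := sumElim_prime483 hpvP hqvP
  have hinj := sumElim_injective483 hpv hq.1 hdisj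
  have hN₀ : NeZero (wilesLevel p .flat Smin Smin) := ⟨wilesLevel_min_ne_zero483 h.hSmin⟩
  have hM : MIA p Smin pv qv ≠ 0 :=
    gLevel_ne_zero (wilesLevel p .flat Smin Smin) (Sum.elim pv qv) (NeZero.ne _) hprime
  -- the eigen-systems
  have hT : ∀ x ∈ TsetOf PQ, x.1.Prime ∧ ¬ x.1 ∣ MIA p Smin pv qv := by
    rintro x ⟨hℓ, -, hℓS, -⟩
    exact ⟨hℓ, fun hdvd => hℓS (mem_of_dvd_MIA483 h.hSmin hpvP hqvP hpvPiv hℓ hdvd)⟩
  have hU : ∀ x ∈ UsetOf qv α, x.1.Prime ∧ x.1 ∣ MIA p Smin pv qv := by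
    rintro x ⟨j, rfl⟩
    exact ⟨hqvP j, dvd_gLevel (wilesLevel p .flat Smin Smin) (Sum.elim pv qv) (.inr j)⟩
  -- the localisation at the `Γ₀`-level
  obtain ⟨W, hW⟩ := idem 𝒪 (MIA p Smin pv qv) hM (Gamma0 (MIA p Smin pv qv))
    (isMid_Gamma0 _) (TsetOf PQ) (UsetOf qv α) hT hU
  have hcor := nat_cor_G483 p (wilesLevel p .flat Smin Smin) (Sum.elim pv qv) hM hT hU hV hW
  have hres := nat_res_G483 p (wilesLevel p .flat Smin Smin) (Sum.elim pv qv) hM hT hU hV hW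
  -- freeness
  obtain ⟨d, hd⟩ := hfree p hp5 𝒪 ρbar Smin h hflat Piv hPiv k pv hpv hpvPiv n r qv hq PQ α hα V hV
  obtain ⟨g₁, hg₁⟩ := exists_primitive_roots483 pv hpvP
  obtain ⟨g₂, hg₂⟩ := exists_primitive_roots483 qv hqvP
  obtain ⟨b, hb⟩ := hd g₁ g₂ hg₁ hg₂
  -- COR
  obtain ⟨c, hcsurj, -, hcker⟩ := cor_ctrl_G483 (p := p) (wilesLevel p .flat Smin Smin)
    (Sum.elim pv qv) hprime hinj 𝒪 V W
    (fun a x hx => hV.diamondU_mem _ hx)
    (fun e : (∀ i : Fin k, Fin (p ^ padicValNat p (pv i - 1))) ×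
        (∀ j : Fin r, Fin (p ^ padicValNat p (qv j - 1))) =>
      pairU (pv := pv) (qv := qv) (fun i => g₁ i ^ (e.1 i : ℕ)) (fun j => g₂ j ^ (e.2 j : ℕ)))
    (pairEps_bijective483 p hpvP hqvP g₁ g₂ hg₁ hg₂) b hb hcor hres
  -- CHAIN
  obtain ⟨f, hf⟩ := hchain p hp5 𝒪 ρbar Smin h hflat Piv hPiv θ₀ hθ₀ k pv hpv hpvPiv n r qv hq
    hp PQ hθ α hα V₀ W hV₀ hW
  refine ⟨f.comp c, hf.2.comp hcsurj, fun y => ?_⟩
  have h1 : (f.comp c) y = 0 ↔ c y = 0 := by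
    rw [LinearMap.comp_apply]
    constructor
    · intro h0
      exact hf.1 (by rw [h0, map_zero])
    · intro h0
      rw [h0, map_zero]
  rw [h1, hcker y]
  have hset : {z : V | ∃ (a : ∀ s : Fin k ⊕ Fin r, (ZMod (Sum.elim pv qv s))ˣ) (y' : V),
        (z : Additive (KG p (wilesLevel p .flat Smin Smin) (Sum.elim pv qv)) →+ 𝒪) =
          diamondU (isMid_KG p (wilesLevel p .flat Smin Smin) (Sum.elim pv qv))
            (gLift (wilesLevel p .flat Smin Smin) (Sum.elim pv qv) a)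
            (y' : Additive (KG p (wilesLevel p .flat Smin Smin) (Sum.elim pv qv)) →+ 𝒪) -
            (y' : Additive (KG p (wilesLevel p .flat Smin Smin) (Sum.elim pv qv)) →+ 𝒪)} =
      {z : V | ∃ (a₁ : ∀ i : Fin k, (ZMod (pv i))ˣ) (a₂ : ∀ j : Fin r, (ZMod (qv j))ˣ) (y' : V),
        (z : XIA p Smin pv qv 𝒪) = diaIA p Smin pv qv 𝒪 a₁ a₂ y' - y'} := by
    ext z
    constructor
    · rintro ⟨a, y', hz⟩
      refine ⟨fun i => a (.inl i), fun j => a (.inr j), y', ?_⟩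
      rw [hz]
      unfold diaIA
      rw [pairU_eta483 a]
    · rintro ⟨a₁, a₂, y', hz⟩
      exact ⟨pairU a₁ a₂, y', hz⟩
  rw [hset]

end Fermat.Agent.S38.H483
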