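import Fermat.Agent.S38.H483.IAChain

/-!
# Leaf IA-CTRL, GENERIC form: any base level, any type `t`, every `p`  (helper483)

The proof of `iaCtrl : IACtrlStatement` (`IACtrl.lean`, `IAChain.lean`) with the base level
`N₀` (`= wilesLevel p .flat Smin Smin` there), Ribet's level `L` (`= ribetLevel p Smin Piv`) and
the eigen-systems as PARAMETERS, for the twins of the leaf at `t = .sord` and `p = 3`
(row S59, cell LO-IA).  Nothing here uses `5 ≤ p` or flatness.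

* `tw_data483` : the data `(β_j, c_j)` at the Taylor–Wiles primes, from `IsFrobLift` and
  `ResFrobCond`, at ANY level `L` and ANY set `S`;
* `tsetOf_eq_tsetAway483` : `TsetOf PQ = TsetAway (TsetOfθ θ₀) qv` for a package `PQ` of ANY type
  `t` with `θ_Q = θ₀ ∘ oldRestrict`;
* `ctrl_core483` : `π : V ↠ V₀` with kernel the augmentation submodule of
  `Δ_Piv × Δ_Q`, for `V` the localisation of `X_K(𝒪)`, `K = KG p N₀ (Sum.elim pv qv)`, free in the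
  shape of `IAFreeAt`, and `V₀` the localisation of `X_{Γ₀(L)}(𝒪)`, `N₀ ∏ pv ∏ qv = L ∏ qv`.
-/

set_option autoImplicit false
set_option linter.unusedSectionVars false
set_option linter.style.haveILetI false

open Polynomial IsLocalRing CongruenceSubgroup
open scoped MatrixGroups

namespace Fermat.Agent.S38.H483

open Fermat.Agent.S59.Arch Fermat.Agent.S59.TW.H959 Fermat.Agent.S59.TW Fermat.Agent.S59.H765
open Fermat.Agent.S59.TW.H653 Fermat.Agent.S59.TW.Aut Fermat.Agent.S59.MFree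
open Fermat.Agent.S59.TW.Aut.H762 Fermat.Agent.S59.H105
open Fermat.Agent.S38.IA Fermat.Agent.S38.IA.Hecke
open CuspForm

section Data

variable {𝒪 : Type} [CommRing 𝒪] [IsDomain 𝒪] [IsDiscreteValuationRing 𝒪]
  [IsAdicComplete (maximalIdeal 𝒪) 𝒪]

/-- **The data at the Taylor–Wiles primes**, at any level `L` and any set `S`. -/
theorem tw_data483 {ρbar : ResidualGaloisRep (ResidueField 𝒪)} {L : ℕ} [NeZero L] {S : Set ℕ}
    (θ₀ : CuspForm.heckeAlgebra L 2 S →+* ResidueField 𝒪)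
    (hθ₀ : Fermat.Agent.S59.G4.ResFrobCond ρbar θ₀)
    {r : ℕ} (qv : Fin r → ℕ) (α : Fin r → 𝒪) (hα : IsFrobLift ρbar qv α)
    (hqvP : ∀ j, (qv j).Prime) (hqvL : ∀ j, ¬ qv j ∣ L) (hqvS : ∀ j, qv j ∉ S)
    (hqk : ∀ j, ((qv j : ℕ) : ResidueField 𝒪) = 1) :
    ∃ β c : Fin r → 𝒪,
      (∀ j, residue 𝒪 (c j) = θ₀ (heckeAlgebra.T (hqvP j) (hqvL j) (hqvS j))) ∧
      (∀ j, α j + β j - c j ∈ maximalIdeal 𝒪) ∧
      (∀ j, α j * β j - ((qv j : ℕ) : 𝒪) ∈ maximalIdeal 𝒪) ∧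
      (∀ j, IsUnit (α j - β j)) ∧ (∀ j, IsUnit (1 - α j ^ 2)) ∧ (∀ j, IsUnit (1 - β j ^ 2)) ∧
      (∀ j, IsUnit ((qv j : ℕ) : 𝒪)) := by
  have hdata : ∀ j, ∃ β c : 𝒪,
      residue 𝒪 c = θ₀ (heckeAlgebra.T (hqvP j) (hqvL j) (hqvS j)) ∧
      α j + β - c ∈ maximalIdeal 𝒪 ∧ α j * β - ((qv j : ℕ) : 𝒪) ∈ maximalIdeal 𝒪 ∧
      IsUnit (α j - β) ∧ IsUnit (1 - α j ^ 2) ∧ IsUnit (1 - β ^ 2) := by
    intro j
    obtain ⟨P, φ, βb, hP, hφ, hne, hcp⟩ := hα j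
    have hcp' := hθ₀ (qv j) (hqvP j) (hqvL j) (hqvS j) P hP φ hφ
    rw [hcp] at hcp'
    obtain ⟨ht, hqab⟩ := coeffs_of_split483 hcp'
    rw [hqk j] at hqab
    obtain ⟨β, hβ⟩ := residue_surjective βb
    obtain ⟨c, hc⟩ := residue_surjective (θ₀ (heckeAlgebra.T (hqvP j) (hqvL j) (hqvS j)))
    have hab : residue 𝒪 (α j) * βb = 1 := hqab.symm
    have ha0 : residue 𝒪 (α j) ≠ 0 := fun h0 => by
      rw [h0, zero_mul] at hab
      exact zero_ne_one hab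
    have hb0 : βb ≠ 0 := fun h0 => by
      rw [h0, mul_zero] at hab
      exact zero_ne_one hab
    refine ⟨β, c, hc, ?_, ?_, ?_, ?_, ?_⟩
    · rw [← residue_eq_zero_iff, map_sub, map_add, hβ, hc, ht, sub_self]
    · rw [← residue_eq_zero_iff, map_sub, map_mul, hβ, map_natCast, hqk j, hab, sub_self]
    · apply isUnit_of_residue_ne_zero483
      rw [map_sub, hβ]
      exact sub_ne_zero.mpr hne
    · apply isUnit_of_residue_ne_zero483
      rw [map_sub, map_one, map_pow]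
      intro h0
      have h1 : residue 𝒪 (α j) ^ 2 = residue 𝒪 (α j) * βb := by
        rw [hab]
        exact (sub_eq_zero.mp h0).symm
      rw [pow_two] at h1
      exact hne (mul_left_cancel₀ ha0 h1)
    · apply isUnit_of_residue_ne_zero483
      rw [map_sub, map_one, map_pow, hβ]
      intro h0
      have h1 : βb ^ 2 = residue 𝒪 (α j) * βb := by
        rw [hab]
        exact (sub_eq_zero.mp h0).symm
      rw [pow_two] at h1
      exact hne (mul_right_cancel₀ hb0 h1).symm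
  choose β c hc hsum hprod hαβ hα2 hβ2 using hdata
  refine ⟨β, c, hc, hsum, hprod, hαβ, hα2, hβ2, fun j => ?_⟩
  apply isUnit_of_residue_ne_zero483
  rw [map_natCast, hqk j]
  exact one_ne_zero

/-- **The eigen-system of a package of any type `t` at the top level**, in terms of the
eigen-system `θ₀` at the base level: `TsetOf PQ = TsetAway (TsetOfθ θ₀) qv`. -/
theorem tsetOf_eq_tsetAway483 {p : ℕ} {ρbar : ResidualGaloisRep (ResidueField 𝒪)} {t : PType}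
    {Smin S₀ : Finset ℕ} {r : ℕ} (qv : Fin r → ℕ)
    [NeZero (wilesLevel p t Smin (S₀ ∪ Finset.univ.image qv))]
    (PQ : HeckePkg p 𝒪 ρbar t Smin (S₀ ∪ Finset.univ.image qv))
    {L : ℕ} [NeZero L]
    (θ₀ : CuspForm.heckeAlgebra L 2 (↑S₀ : Set ℕ) →+* ResidueField 𝒪)
    (hLS : ∀ ℓ : ℕ, ℓ.Prime → ℓ ∣ L → ℓ ∈ (↑S₀ : Set ℕ))
    (hp : LevelPair L (wilesLevel p t Smin (S₀ ∪ Finset.univ.image qv))
      (↑S₀ : Set ℕ) (↑(S₀ ∪ Finset.univ.image qv) : Set ℕ))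
    (hθ : PQ.θ = θ₀.comp (oldRestrict hp)) :
    TsetOf PQ = TsetAway (TsetOfθ θ₀) qv := by
  ext x
  constructor
  · rintro ⟨hℓ, hℓN', hℓS', hres⟩
    have hℓS : x.1 ∉ (↑S₀ : Set ℕ) := fun hmem => hℓS' (by
      rw [Finset.mem_coe] at hmem ⊢
      exact Finset.mem_union_left _ hmem)
    have hℓN : ¬ x.1 ∣ L := fun hdvd => hℓS (hLS x.1 hℓ hdvd)
    refine ⟨⟨hℓ, hℓN, hℓS, ?_⟩, fun j hj => hℓS' ?_⟩
    · rw [hres, hθ, RingHom.comp_apply, oldRestrict_T hp hℓ hℓN' hℓS' hℓN hℓS]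
    · rw [Finset.mem_coe, hj]
      exact Finset.mem_union_right _ (Finset.mem_image_of_mem qv (Finset.mem_univ j))
  · rintro ⟨⟨hℓ, hℓN, hℓS, hres⟩, hne⟩
    have hℓS' : x.1 ∉ (↑(S₀ ∪ Finset.univ.image qv) : Set ℕ) := by
      rw [Finset.mem_coe, Finset.mem_union]
      rintro (hmem | hmem)
      · exact hℓS (Finset.mem_coe.mpr hmem)
      · obtain ⟨j, -, hj⟩ := Finset.mem_image.mp hmem
        exact hne j hj.symm
    have hℓN' : ¬ x.1 ∣ wilesLevel p t Smin (S₀ ∪ Finset.univ.image qv) :=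
      fun hdvd => hℓN (hp.hU x.1 hℓ hdvd hℓS')
    refine ⟨hℓ, hℓN', hℓS', ?_⟩
    rw [hres, hθ, RingHom.comp_apply, oldRestrict_T hp hℓ hℓN' hℓS' hℓN hℓS]

end Data

section Core

variable {p : ℕ} [hp : Fact p.Prime]
  {𝒪 : Type} [CommRing 𝒪] [IsDomain 𝒪] [IsDiscreteValuationRing 𝒪]
  [IsAdicComplete (maximalIdeal 𝒪) 𝒪] [Finite (ResidueField 𝒪)] [CharZero 𝒪]

/-- **IA-CTRL, generic core.** -/
theorem ctrl_core483 (N₀ : ℕ) [hN₀ : NeZero N₀] {k r : ℕ} (pv : Fin k → ℕ) (qv : Fin r → ℕ)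
    (hpvP : ∀ i, (pv i).Prime) (hqvP : ∀ j, (qv j).Prime)
    (hpv : Function.Injective pv) (hqv : Function.Injective qv) (hdisj : ∀ i j, pv i ≠ qv j)
    (L : ℕ) (hL0 : L ≠ 0) (hML : gLevel N₀ (Sum.elim pv qv) = L * ∏ j, qv j)
    {Tset₀ : Set (ℕ × 𝒪)} (hT₀ : ∀ x ∈ Tset₀, x.1.Prime ∧ ¬ x.1 ∣ L)
    {V₀ : Submodule 𝒪 (Additive (Gamma0 L) →+ 𝒪)}
    (hV₀ : IsLocPart (isMid_Gamma0 L) Tset₀ ∅ V₀)
    (α β c : Fin r → 𝒪) (hqvL : ∀ j, ¬ qv j ∣ L)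
    (hqu : ∀ j, IsUnit ((qv j : ℕ) : 𝒪)) (hcT : ∀ j, (qv j, c j) ∈ Tset₀)
    (hcq : ∀ j c', (qv j, c') ∈ Tset₀ → c' - c j ∈ maximalIdeal 𝒪)
    (hsum : ∀ j, α j + β j - c j ∈ maximalIdeal 𝒪)
    (hprod : ∀ j, α j * β j - ((qv j : ℕ) : 𝒪) ∈ maximalIdeal 𝒪)
    (hαβ : ∀ j, IsUnit (α j - β j)) (hα2 : ∀ j, IsUnit (1 - α j ^ 2))
    (hβ2 : ∀ j, IsUnit (1 - β j ^ 2))
    {Tset : Set (ℕ × 𝒪)} (hTset : Tset = TsetAway Tset₀ qv)
    (hT : ∀ x ∈ Tset, x.1.Prime ∧ ¬ x.1 ∣ gLevel N₀ (Sum.elim pv qv))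
    {V : Submodule 𝒪 (Additive (KG p N₀ (Sum.elim pv qv)) →+ 𝒪)}
    (hV : IsLocPart (isMid_KG p N₀ (Sum.elim pv qv)) Tset (UsetOf qv α) V)
    (hfree : ∃ d : ℕ, ∀ (g₁ : ∀ i : Fin k, (ZMod (pv i))ˣ) (g₂ : ∀ j : Fin r, (ZMod (qv j))ˣ),
      (∀ i, orderOf (g₁ i) = pv i - 1) → (∀ j, orderOf (g₂ j) = qv j - 1) →
      ∃ b : Fin d → V, ∀ y : V,
        ∃! c : Fin d → (∀ i : Fin k, Fin (p ^ padicValNat p (pv i - 1))) ×
            (∀ j : Fin r, Fin (p ^ padicValNat p (qv j - 1))) → 𝒪,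
          (y : Additive (KG p N₀ (Sum.elim pv qv)) →+ 𝒪) =
            ∑ i, ∑ e, c i e • diamondU (isMid_KG p N₀ (Sum.elim pv qv))
              (gLift N₀ (Sum.elim pv qv) (pairU (pv := pv) (qv := qv)
                (fun i' => g₁ i' ^ (e.1 i' : ℕ)) (fun j => g₂ j ^ (e.2 j : ℕ)))) (b i)) :
    ∃ π : V →ₗ[𝒪] V₀, Function.Surjective π ∧
      ∀ y : V, π y = 0 ↔
        y ∈ AddSubgroup.closure {z : V | ∃ (a₁ : ∀ i : Fin k, (ZMod (pv i))ˣ)
          (a₂ : ∀ j : Fin r, (ZMod (qv j))ˣ) (y' : V),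
          (z : Additive (KG p N₀ (Sum.elim pv qv)) →+ 𝒪) =
            diamondU (isMid_KG p N₀ (Sum.elim pv qv))
              (gLift N₀ (Sum.elim pv qv) (pairU (pv := pv) (qv := qv) a₁ a₂))
              (y' : Additive (KG p N₀ (Sum.elim pv qv)) →+ 𝒪) -
            (y' : Additive (KG p N₀ (Sum.elim pv qv)) →+ 𝒪)} := by
  classical
  have hprime := sumElim_prime483 hpvP hqvP
  have hinj := sumElim_injective483 hpv hqv hdisj
  have hM : gLevel N₀ (Sum.elim pv qv) ≠ 0 :=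
    gLevel_ne_zero N₀ (Sum.elim pv qv) (NeZero.ne _) hprime
  have hU : ∀ x ∈ UsetOf qv α, x.1.Prime ∧ x.1 ∣ gLevel N₀ (Sum.elim pv qv) := by
    rintro x ⟨j, rfl⟩
    exact ⟨hqvP j, dvd_gLevel N₀ (Sum.elim pv qv) (.inr j)⟩
  -- the localisation at the `Γ₀`-level
  obtain ⟨W, hW⟩ := Fermat.Agent.S59.TW.Aut.H511.idem 𝒪 (gLevel N₀ (Sum.elim pv qv)) hM
    (Gamma0 (gLevel N₀ (Sum.elim pv qv))) (isMid_Gamma0 _) Tset (UsetOf qv α) hT hU
  have hcor := nat_cor_G483 p N₀ (Sum.elim pv qv) hM hT hU hV hW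
  have hres := nat_res_G483 p N₀ (Sum.elim pv qv) hM hT hU hV hW
  -- freeness
  obtain ⟨d, hd⟩ := hfree
  obtain ⟨g₁, hg₁⟩ := exists_primitive_roots483 pv hpvP
  obtain ⟨g₂, hg₂⟩ := exists_primitive_roots483 qv hqvP
  obtain ⟨b, hb⟩ := hd g₁ g₂ hg₁ hg₂
  -- COR
  obtain ⟨c', hcsurj, -, hcker⟩ := cor_ctrl_G483 (p := p) N₀
    (Sum.elim pv qv) hprime hinj 𝒪 V W
    (fun a x hx => hV.diamondU_mem _ hx)
    (fun e : (∀ i : Fin k, Fin (p ^ padicValNat p (pv i - 1))) ×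
        (∀ j : Fin r, Fin (p ^ padicValNat p (qv j - 1))) =>
      pairU (pv := pv) (qv := qv) (fun i => g₁ i ^ (e.1 i : ℕ)) (fun j => g₂ j ^ (e.2 j : ℕ)))
    (pairEps_bijective483 p hpvP hqvP g₁ g₂ hg₁ hg₂) b hb hcor hres
  -- CHAIN
  have hW' : IsLocPart (isMid_Gamma0 (gLevel N₀ (Sum.elim pv qv))) (TsetAway Tset₀ qv)
      (UsetOf qv α) W := hTset ▸ hW
  obtain ⟨f, hf1, hf2, hf3, -⟩ := iter_chain Fermat.Agent.S59.TW.Aut.H511.idem cross
    hL0 hT₀ hV₀ r qv α β c hqv hqvP hqvL hqu hcT hcq hsum hprod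
    hαβ hα2 hβ2 (gLevel N₀ (Sum.elim pv qv)) hML W hW'
  let f' : W →ₗ[𝒪] V₀ := LinearMap.codRestrict V₀ (f.comp W.subtype) (fun w => hf1 w w.2)
  have hf'inj : Function.Injective f' := by
    intro w w' hww
    have h1 : f ((w : Additive (Gamma0 (gLevel N₀ (Sum.elim pv qv))) →+ 𝒪) - w') = 0 := by
      have := congrArg Subtype.val hww
      simp only [f', LinearMap.codRestrict_apply, LinearMap.comp_apply,
        Submodule.subtype_apply] at this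
      rw [map_sub, this, sub_self]
    have h2 := hf2 _ (W.sub_mem w.2 w'.2) h1
    exact Subtype.ext (sub_eq_zero.mp h2)
  have hf'surj : Function.Surjective f' := by
    rintro ⟨x, hx⟩
    obtain ⟨y, hy, e⟩ := hf3 x hx
    exact ⟨⟨y, hy⟩, Subtype.ext e⟩
  refine ⟨f'.comp c', hf'surj.comp hcsurj, fun y => ?_⟩
  have h1 : (f'.comp c') y = 0 ↔ c' y = 0 := by
    rw [LinearMap.comp_apply]
    constructor
    · intro h0
      exact hf'inj (by rw [h0, map_zero])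
    · intro h0
      rw [h0, map_zero]
  rw [h1, hcker y]
  have hset : {z : V | ∃ (a : ∀ s : Fin k ⊕ Fin r, (ZMod (Sum.elim pv qv s))ˣ) (y' : V),
        (z : Additive (KG p N₀ (Sum.elim pv qv)) →+ 𝒪) =
          diamondU (isMid_KG p N₀ (Sum.elim pv qv))
            (gLift N₀ (Sum.elim pv qv) a)
            (y' : Additive (KG p N₀ (Sum.elim pv qv)) →+ 𝒪) -
            (y' : Additive (KG p N₀ (Sum.elim pv qv)) →+ 𝒪)} =
      {z : V | ∃ (a₁ : ∀ i : Fin k, (ZMod (pv i))ˣ) (a₂ : ∀ j : Fin r, (ZMod (qv j))ˣ) (y' : V),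
        (z : Additive (KG p N₀ (Sum.elim pv qv)) →+ 𝒪) =
          diamondU (isMid_KG p N₀ (Sum.elim pv qv))
            (gLift N₀ (Sum.elim pv qv) (pairU (pv := pv) (qv := qv) a₁ a₂))
            (y' : Additive (KG p N₀ (Sum.elim pv qv)) →+ 𝒪) -
            (y' : Additive (KG p N₀ (Sum.elim pv qv)) →+ 𝒪)} := by
    ext z
    constructor
    · rintro ⟨a, y', hz⟩
      refine ⟨fun i => a (.inl i), fun j => a (.inr j), y', ?_⟩
      rw [hz, pairU_eta483 a]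
    · rintro ⟨a₁, a₂, y', hz⟩
      exact ⟨pairU a₁ a₂, y', hz⟩
  rw [hset]

end Core

/-! ## Nontriviality, generic form -/

/-- **IA-NONTRIV, generic core**: the localisation of `X_{Γ₀(N)}(𝒪)` at a character of the Hecke
algebra of level `N` is free of positive rank (any `N`, any `S ⊇ primes(N)`). -/
theorem rank_pos_of_isLocPart483 {N : ℕ} [NeZero N] {S : Set ℕ}
    (hNS : ∀ q : ℕ, q.Prime → q ∣ N → q ∈ S)
    {𝒪 : Type} [CommRing 𝒪] [IsDomain 𝒪] [IsDiscreteValuationRing 𝒪]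
    (θ : CuspForm.heckeAlgebra N 2 S →+* ResidueField 𝒪)
    (V₀ : Submodule 𝒪 (Additive (Gamma0 N) →+ 𝒪))
    (hV₀ : IsLocPart (isMid_Gamma0 N) (TsetOfθ θ) ∅ V₀) :
    ∃ d : ℕ, 0 < d ∧ Nonempty (Module.Basis (Fin d) 𝒪 V₀) := by
  classical
  have hnt : Nontrivial V₀ := nontrivial_of_isLocPart483 hNS θ V₀ hV₀
  have hfi : (Gamma0 N).FiniteIndex := Subgroup.finiteIndex_of_le (isMid_Gamma0 N).ge
  obtain ⟨hfin, hfree⟩ :=
    Fermat.Agent.S59.MFree.H761.finite_free_submodule (O := 𝒪) (Gamma0 N) V₀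
  let b := Module.Free.chooseBasis 𝒪 V₀
  let ι := Module.Free.ChooseBasisIndex 𝒪 V₀
  have hne : Nonempty ι := by
    by_contra hempty
    rw [not_nonempty_iff] at hempty
    have hsub : Subsingleton V₀ := by
      refine ⟨fun a c => ?_⟩
      apply b.repr.injective
      ext i
      exact (hempty.false i).elim
    exact not_subsingleton V₀ hsub
  exact ⟨Fintype.card ι, Fintype.card_pos, ⟨b.reindex (Fintype.equivFin ι)⟩⟩

end Fermat.Agent.S38.H483
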