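import Fermat.Agent.S38.IA.Hecke.Spec3
import Fermat.Agent.S59.TW.Aut.H581.Nontriv
import Fermat.Agent.S59.MFree.H761.FreeAbs

/-!
# Row HARD, cell HECKE, layer 3, leaf IA-NONTRIV (helper483)

`iaNontriv483 : IANontrivStatement` VERBATIM: the localisation `V₀` of `X_{Γ₀(L)}(𝒪)`,
`L = ribetLevel p Smin Piv`, at the maximal ideal of `θ₀` is free of positive rank over `𝒪`.

* free of finite rank: a submodule of `Hom(Γ₀(L), 𝒪)` (`MFree.H761.finite_free_submodule`);
* nonzero: the occurrence lemma of helper581 (`h581_exists_occ`, any level, any character) and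
  the fullness clause of `IsLocPart`.
-/

set_option autoImplicit false

open IsLocalRing CongruenceSubgroup
open scoped MatrixGroups

namespace Fermat.Agent.S38.H483

open Fermat.Agent.S59.Arch Fermat.Agent.S59.TW.H959 Fermat.Agent.S59.TW.H653
open Fermat.Agent.S59.TW.Aut Fermat.Agent.S38.IA Fermat.Agent.S38.IA.Hecke

/-- The primes dividing Ribet's level lie in `Smin ∪ Piv`. -/
theorem mem_of_dvd_ribetLevel483 {p : ℕ} {Smin Piv : Finset ℕ}
    (hS : ∀ q ∈ Smin, q.Prime) (hP : ∀ q ∈ Piv, q.Prime) {q : ℕ} (hq : q.Prime)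
    (hdvd : q ∣ ribetLevel p Smin Piv) : q ∈ (↑(Smin ∪ Piv) : Set ℕ) := by
  unfold ribetLevel at hdvd
  rw [Finset.mem_coe, Finset.mem_union]
  rcases (Nat.Prime.dvd_mul hq).mp hdvd with h | h
  · obtain ⟨a, ha, hqa⟩ := (Prime.dvd_finsetProd_iff hq.prime _).mp h
    have ha' : a ∈ Smin := Finset.mem_of_mem_erase ha
    have : q = a := (Nat.prime_dvd_prime_iff_eq hq (hS a ha')).mp hqa
    exact Or.inl (this ▸ ha')
  · obtain ⟨a, ha, hqa⟩ := (Prime.dvd_finsetProd_iff hq.prime _).mp h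
    have : q = a := (Nat.prime_dvd_prime_iff_eq hq (hP a ha)).mp hqa
    exact Or.inr (this ▸ ha)

/-- **Nontriviality of a localisation at a character of the Hecke algebra** (any level `N`, any
`S ⊇ primes(N)`): helper581's argument. -/
theorem nontrivial_of_isLocPart483 {N : ℕ} [NeZero N] {S : Set ℕ}
    (hNS : ∀ q : ℕ, q.Prime → q ∣ N → q ∈ S)
    {𝒪 : Type} [CommRing 𝒪] [IsDomain 𝒪] [IsDiscreteValuationRing 𝒪]
    (θ : CuspForm.heckeAlgebra N 2 S →+* ResidueField 𝒪)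
    (V₀ : Submodule 𝒪 (Additive (Gamma0 N) →+ 𝒪))
    (hV₀ : IsLocPart (isMid_Gamma0 N) (TsetOfθ θ) ∅ V₀) : Nontrivial V₀ := by
  classical
  obtain ⟨x, hx0, hxe⟩ := H581.h581_exists_occ hNS θ
  obtain ⟨e, -, he_mem, -, -, -, -, hfull⟩ := hV₀.exists_proj
  have hex : e x ≠ 0 := by
    intro h0
    apply hx0
    refine hfull x h0 ?_ ?_
    · intro ℓ _ c hc
      obtain ⟨hℓ, hℓN, hℓS, hres⟩ := hc
      rw [TK_Gamma0 hℓN]
      exact hxe ℓ hℓN hℓS c hres
    · intro q _ α hα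
      exact absurd hα (Set.notMem_empty _)
  exact nontrivial_of_ne (⟨e x, he_mem x⟩ : V₀) 0 fun h0 => hex (congrArg Subtype.val h0)

theorem iaNontriv483 : IANontrivStatement := by
  intro p _ _ 𝒪 _ _ _ _ _ _ ρbar Smin h _ Piv hPiv hL θ₀ _ V₀ hV₀
  classical
  have hNS : ∀ q : ℕ, q.Prime → q ∣ ribetLevel p Smin Piv → q ∈ (↑(Smin ∪ Piv) : Set ℕ) :=
    fun q hq hdvd => mem_of_dvd_ribetLevel483 h.hSmin (fun q hq => (hPiv q hq).1) hq hdvd
  have hnt : Nontrivial V₀ := nontrivial_of_isLocPart483 hNS θ₀ V₀ hV₀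
  have hfi : (Gamma0 (ribetLevel p Smin Piv)).FiniteIndex :=
    Subgroup.finiteIndex_of_le (isMid_Gamma0 (ribetLevel p Smin Piv)).ge
  obtain ⟨hfin, hfree⟩ :=
    Fermat.Agent.S59.MFree.H761.finite_free_submodule (O := 𝒪) (Gamma0 (ribetLevel p Smin Piv)) V₀
  let b := Module.Free.chooseBasis 𝒪 V₀
  let ι := Module.Free.ChooseBasisIndex 𝒪 V₀
  have hne : Nonempty ι := by
    by_contra hempty
    rw [not_nonempty_iff] at hempty
    have hsub : Subsingleton V₀ := by
      refine ⟨fun a c => ?_⟩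
      apply b.repr.injective
      ext i
      exact (hempty.false i).elim
    exact not_subsingleton V₀ hsub
  refine ⟨Fintype.card ι, Fintype.card_pos, ⟨b.reindex (Fintype.equivFin ι)⟩⟩

end Fermat.Agent.S38.H483
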