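import Fermat.Agent.S38.H483.IACtrl
import Fermat.Agent.S38.H483.IANontriv
import Fermat.Agent.S59.H105.Iter
import Fermat.Agent.S59.H105.Cross
import Fermat.Agent.S59.TW.Aut.H511.Idem

/-!
# Row HARD, cell HECKE, layer 3, leaf IA-CTRL: the chain and the leaf (helper483)

* `iaChain483 : IAChainStatement` : the localisation `W` of `X_{Γ₀(M)}(𝒪)`,
  `M = N_min ∏ pv ∏ qv = L ∏ qv`, at `(T_ℓ - c_ℓ (ℓ ∉ Σ_Q), U_{q_j} - α_j)` is isomorphic to the
  localisation `V₀` of `X_{Γ₀(L)}(𝒪)` at `θ₀`.  Proof: helper105's `iter_chain` (iteration of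
  `one_step`) at the base level `L = ribetLevel p Smin Piv`; the hypotheses at the Taylor–Wiles
  primes (`α + β ≡ θ₀(T_q)`, `α β ≡ q`, `α ≢ β`, `α², β² ≢ 1`) come from `IsFrobLift`,
  `ResFrobCond` and `q ≡ 1 mod p`.
* `iaCtrl483 : IAFreeStatement → IACtrlStatement` (`Aut.H511.idem` plugged).
-/

set_option autoImplicit false

open Polynomial IsLocalRing CongruenceSubgroup
open scoped MatrixGroups

namespace Fermat.Agent.S38.H483

open Fermat.Agent.S59.Arch Fermat.Agent.S59.TW.H959 Fermat.Agent.S59.TW Fermat.Agent.S59.H765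
open Fermat.Agent.S59.TW.H653 Fermat.Agent.S59.TW.Aut Fermat.Agent.S59.H105
open Fermat.Agent.S38.IA Fermat.Agent.S38.IA.Hecke
open CuspForm

/-! ## Elementary lemmas -/

/-- The coefficients of a split monic quadratic. -/
theorem coeffs_of_split483 {k : Type} [Field k] {a b t q : k}
    (h : (X - C a) * (X - C b) = X ^ 2 - C t * X + C q) : t = a + b ∧ q = a * b := by
  have e : (X - C a) * (X - C b) = X ^ 2 - C (a + b) * X + C (a * b) := by
    rw [C_add, C_mul]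
    ring
  rw [e] at h
  have h0 := congrArg (fun f : k[X] => f.coeff 0) h
  have h1 := congrArg (fun f : k[X] => f.coeff 1) h
  simp only [coeff_add, coeff_sub, coeff_X_pow, coeff_C_mul, coeff_X_zero, coeff_C_zero,
    coeff_X_one, coeff_C_succ] at h0 h1
  norm_num at h0 h1
  refine ⟨?_, h0.symm⟩
  have h2 := congrArg Neg.neg h1
  simp only [neg_add_rev, neg_neg] at h2
  exact h2.symm

/-- `q ≡ 1` modulo `p^(n+1)` and `p ∈ 𝔪` give `q = 1` in the residue field. -/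
theorem natCast_residue_eq_one483 {𝒪 : Type} [CommRing 𝒪] [IsLocalRing 𝒪] {p n q : ℕ}
    (hp𝒪 : (p : 𝒪) ∈ maximalIdeal 𝒪) (hq0 : 0 < q) (hdvd : p ^ (n + 1) ∣ q - 1) :
    ((q : ℕ) : ResidueField 𝒪) = 1 := by
  obtain ⟨m, hm⟩ := hdvd
  have hq : q = p ^ (n + 1) * m + 1 := by omega
  have hp0 : ((p : ℕ) : ResidueField 𝒪) = 0 := by
    have := (residue_eq_zero_iff (p : 𝒪)).mpr hp𝒪
    rwa [map_natCast] at this
  rw [hq]
  push_cast
  rw [hp0, pow_succ, mul_zero, zero_mul, zero_add]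

/-- An element whose residue is nonzero is a unit. -/
theorem isUnit_of_residue_ne_zero483 {𝒪 : Type} [CommRing 𝒪] [IsLocalRing 𝒪] {x : 𝒪}
    (h : residue 𝒪 x ≠ 0) : IsUnit x := by
  by_contra hx
  exact h ((residue_eq_zero_iff x).mpr ((mem_maximalIdeal x).mpr hx))

/-- The Betti level is `L ∏ qv`. -/
theorem MIA_eq483 (p : ℕ) (Smin Piv : Finset ℕ) {k r : ℕ} (pv : Fin k → ℕ) (qv : Fin r → ℕ)
    (hpv : Function.Injective pv) (hpvPiv : Finset.univ.image pv = Piv) :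
    MIA p Smin pv qv = ribetLevel p Smin Piv * ∏ j, qv j := by
  unfold MIA gLevel ribetLevel wilesLevel
  rw [Fintype.prod_sum_type, Finset.sdiff_self, Finset.prod_empty, mul_one, mul_one,
    ← hpvPiv, Finset.prod_image (fun a _ b _ h => hpv h)]
  simp only [Sum.elim_inl, Sum.elim_inr]
  rw [mul_assoc]

/-! ## The chain -/

theorem iaChain483 : IAChainStatement := by
  intro p _ _ 𝒪 _ _ _ _ _ _ ρbar Smin h _ Piv hPiv hL θ₀ hθ₀ k pv hpv hpvPiv n r qv hq _
    hp PQ hθ α hα V₀ W hV₀ hW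
  classical
  have hPivP : ∀ q ∈ Piv, q.Prime := fun q hq' => (hPiv q hq').1
  have hqvP : ∀ j, (qv j).Prime := fun j => (hq.2.1 j).1
  have hqvS : ∀ j, qv j ∉ (↑(Smin ∪ Piv) : Set ℕ) := fun j => by
    rw [Finset.mem_coe]
    exact (hq.2.1 j).2.1
  have hqvL : ∀ j, ¬ qv j ∣ ribetLevel p Smin Piv := fun j hdvd =>
    hqvS j (mem_of_dvd_ribetLevel483 h.hSmin hPivP (hqvP j) hdvd)
  have hqk : ∀ j, ((qv j : ℕ) : ResidueField 𝒪) = 1 := fun j =>
    natCast_residue_eq_one483 h.hp𝒪 (hqvP j).pos (hq.2.1 j).2.2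
  -- the data at the Taylor–Wiles primes
  have hdata : ∀ j, ∃ β c : 𝒪,
      residue 𝒪 c = θ₀ (heckeAlgebra.T (hqvP j) (hqvL j) (hqvS j)) ∧
      α j + β - c ∈ maximalIdeal 𝒪 ∧ α j * β - ((qv j : ℕ) : 𝒪) ∈ maximalIdeal 𝒪 ∧
      IsUnit (α j - β) ∧ IsUnit (1 - α j ^ 2) ∧ IsUnit (1 - β ^ 2) := by
    intro j
    obtain ⟨P, φ, βb, hP, hφ, hne, hcp⟩ := hα j
    have hcp' := hθ₀ (qv j) (hqvP j) (hqvL j) (hqvS j) P hP φ hφ
    rw [hcp] at hcp'
    obtain ⟨ht, hqab⟩ := coeffs_of_split483 hcp'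
    rw [hqk j] at hqab
    obtain ⟨β, hβ⟩ := residue_surjective βb
    obtain ⟨c, hc⟩ := residue_surjective (θ₀ (heckeAlgebra.T (hqvP j) (hqvL j) (hqvS j)))
    have hab : residue 𝒪 (α j) * βb = 1 := hqab.symm
    have ha0 : residue 𝒪 (α j) ≠ 0 := fun h0 => by
      rw [h0, zero_mul] at hab
      exact zero_ne_one hab
    have hb0 : βb ≠ 0 := fun h0 => by
      rw [h0, mul_zero] at hab
      exact zero_ne_one hab
    refine ⟨β, c, hc, ?_, ?_, ?_, ?_, ?_⟩
    · rw [← residue_eq_zero_iff, map_sub, map_add, hβ, hc, ht, sub_self]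
    · rw [← residue_eq_zero_iff, map_sub, map_mul, hβ, map_natCast, hqk j, hab, sub_self]
    · apply isUnit_of_residue_ne_zero483
      rw [map_sub, hβ]
      exact sub_ne_zero.mpr hne
    · apply isUnit_of_residue_ne_zero483
      rw [map_sub, map_one, map_pow]
      intro h0
      have h1 : residue 𝒪 (α j) ^ 2 = residue 𝒪 (α j) * βb := by
        rw [hab]
        exact (sub_eq_zero.mp h0).symm
      rw [pow_two] at h1
      exact hne (mul_left_cancel₀ ha0 h1)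
    · apply isUnit_of_residue_ne_zero483
      rw [map_sub, map_one, map_pow, hβ]
      intro h0
      have h1 : βb ^ 2 = residue 𝒪 (α j) * βb := by
        rw [hab]
        exact (sub_eq_zero.mp h0).symm
      rw [pow_two] at h1
      exact hne (mul_right_cancel₀ hb0 h1).symm
  choose β c hc hsum hprod hαβ hα2 hβ2 using hdata
  -- the eigen-system of `θ₀`
  have hT₀ : ∀ x ∈ TsetOfθ θ₀, x.1.Prime ∧ ¬ x.1 ∣ ribetLevel p Smin Piv := by
    rintro x ⟨hℓ, hℓN, -, -⟩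
    exact ⟨hℓ, hℓN⟩
  have hcT : ∀ j, (qv j, c j) ∈ TsetOfθ θ₀ := fun j => ⟨hqvP j, hqvL j, hqvS j, hc j⟩
  have hcq : ∀ j c', (qv j, c') ∈ TsetOfθ θ₀ → c' - c j ∈ maximalIdeal 𝒪 := by
    rintro j c' ⟨h1, h2, h3, h4⟩
    rw [← residue_eq_zero_iff, map_sub, h4, hc j, sub_self]
  have hqu : ∀ j, IsUnit ((qv j : ℕ) : 𝒪) := fun j => by
    apply isUnit_of_residue_ne_zero483
    rw [map_natCast, hqk j]
    exact one_ne_zero
  -- the two eigen-systems at the top level agree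
  have hTset : TsetOf PQ = TsetAway (TsetOfθ θ₀) qv := by
    ext x
    constructor
    · rintro ⟨hℓ, hℓN', hℓS', hres⟩
      have hℓS : x.1 ∉ (↑(Smin ∪ Piv) : Set ℕ) := fun hmem => hℓS' (by
        rw [Finset.mem_coe] at hmem ⊢
        exact Finset.mem_union_left _ hmem)
      have hℓN : ¬ x.1 ∣ ribetLevel p Smin Piv := fun hdvd =>
        hℓS (mem_of_dvd_ribetLevel483 h.hSmin hPivP hℓ hdvd)
      refine ⟨⟨hℓ, hℓN, hℓS, ?_⟩, fun j hj => hℓS' ?_⟩
      · rw [hres, hθ, RingHom.comp_apply, oldRestrict_T hp hℓ hℓN' hℓS' hℓN hℓS]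
      · rw [Finset.mem_coe, hj]
        exact Finset.mem_union_right _ (Finset.mem_image_of_mem qv (Finset.mem_univ j))
    · rintro ⟨⟨hℓ, hℓN, hℓS, hres⟩, hne⟩
      have hℓS' : x.1 ∉ (↑(Smin ∪ Piv ∪ Finset.univ.image qv) : Set ℕ) := by
        rw [Finset.mem_coe, Finset.mem_union]
        rintro (hmem | hmem)
        · exact hℓS (Finset.mem_coe.mpr hmem)
        · obtain ⟨j, -, hj⟩ := Finset.mem_image.mp hmem
          exact hne j hj.symm
      have hℓN' : ¬ x.1 ∣ wilesLevel p .flat Smin (Smin ∪ Piv ∪ Finset.univ.image qv) :=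
        fun hdvd => hℓN (hp.hU x.1 hℓ hdvd hℓS')
      refine ⟨hℓ, hℓN', hℓS', ?_⟩
      rw [hres, hθ, RingHom.comp_apply, oldRestrict_T hp hℓ hℓN' hℓS' hℓN hℓS]
  rw [hTset] at hW
  -- the chain
  obtain ⟨f, hf1, hf2, hf3, -⟩ := iter_chain Fermat.Agent.S59.TW.Aut.H511.idem cross
    (NeZero.ne (ribetLevel p Smin Piv)) hT₀ hV₀ r qv α β c hq.1 hqvP hqvL hqu hcT hcq hsum hprod
    hαβ hα2 hβ2 (MIA p Smin pv qv) (MIA_eq483 p Smin Piv pv qv hpv hpvPiv) W hW
  refine ⟨LinearMap.codRestrict V₀ (f.comp W.subtype) (fun w => hf1 w w.2), ?_, ?_⟩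
  · intro w w' hww
    have h1 : f ((w : Additive (Gamma0 (MIA p Smin pv qv)) →+ 𝒪) - w') = 0 := by
      have := congrArg Subtype.val hww
      simp only [LinearMap.codRestrict_apply, LinearMap.comp_apply, Submodule.subtype_apply] at this
      rw [map_sub, this, sub_self]
    have h2 := hf2 _ (W.sub_mem w.2 w'.2) h1
    exact Subtype.ext (sub_eq_zero.mp h2)
  · rintro ⟨x, hx⟩
    obtain ⟨y, hy, e⟩ := hf3 x hx
    exact ⟨⟨y, hy⟩, Subtype.ext e⟩

/-- **IA-CTRL**, given IA-FREE. -/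
theorem iaCtrl483 (hfree : IAFreeStatement) : IACtrlStatement :=
  iaCtrl_of_chain483 Fermat.Agent.S59.TW.Aut.H511.idem hfree iaChain483

end Fermat.Agent.S38.H483
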