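import Fermat.Agent.S38.IA.Hecke.LevelLemmas
import Fermat.Agent.S59.TW.Aut.H762.Cor

/-!
# Row HARD, cell HECKE, layer 3, leaf IA-CTRL, step COR for a family indexed by a finite type
(helper483; generic-index version of helper762's `cor_ctrl_N0_h762`)

`K = KG p N₀ qq = ker κ ≤ Γ₀(M)`, `M = gLevel N₀ qq`, `Δ = GDelta p qq`, for a family
`qq : ι → ℕ` of distinct primes.

* `gEps483`, `gEps_bijective483` : for primitive roots `g s` the map
  `e ↦ class of (g s ^ e s)_s`, `∏_s Fin (p ^ m_s) → Δ`, is bijective;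
* `gKappa_surjective483`, `diamondU_gLift_eq_conjAct483` : the dictionary with block M-FREE;
* `cor_ctrl_G483` : for `V ⊆ X_K(𝒪)` stable under the diamond operators with an "`𝒪[Δ]`-basis"
  `⟨ε e⟩ b_i` (`ε : E → ∏ (ℤ/qq s)ˣ` inducing a bijection `E → Δ`), and `W ⊆ X_{Γ₀(M)}(𝒪)` with
  `cor V ⊆ W`, `res W ⊆ V`: the corestriction `V → W` is onto with kernel the augmentation
  submodule.
-/

set_option autoImplicit false

namespace Fermat.Agent.S38.H483

open CongruenceSubgroup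
open Fermat.Agent.S59.TW.H653 Fermat.Agent.S59.MFree Fermat.Agent.S59.TW.Aut.H762
open Fermat.Agent.S38.IA.Hecke
open scoped MatrixGroups

/-! ## The index set -/

section Idx

variable (p : ℕ) {ι : Type} [Fintype ι] (qq : ι → ℕ)

/-- The index map `e ↦ class of (g s ^ e s)_s`. -/
def gEps483 (g : ∀ s : ι, (ZMod (qq s))ˣ)
    (e : ∀ s : ι, Fin (p ^ padicValNat p (qq s - 1))) : GDelta p qq :=
  QuotientGroup.mk (fun s => g s ^ (e s : ℕ))

theorem mem_gPowSub_iff483 (a : ∀ s : ι, (ZMod (qq s))ˣ) :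
    a ∈ gPowSub p qq ↔ ∀ s, ∃ u : (ZMod (qq s))ˣ, u ^ (p ^ padicValNat p (qq s - 1)) = a s := by
  unfold gPowSub
  rw [Subgroup.mem_pi]
  constructor
  · intro h s
    obtain ⟨u, hu⟩ := h s (Set.mem_univ s)
    exact ⟨u, hu⟩
  · intro h s _
    obtain ⟨u, hu⟩ := h s
    exact ⟨u, hu⟩

theorem gEps_injective483 [Fact p.Prime] (hprime : ∀ s, (qq s).Prime)
    (g : ∀ s : ι, (ZMod (qq s))ˣ) (hg : ∀ s, orderOf (g s) = qq s - 1) :
    Function.Injective (gEps483 p qq g) := by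
  intro e e' h
  unfold gEps483 at h
  rw [QuotientGroup.eq, mem_gPowSub_iff483] at h
  funext j
  obtain ⟨u, hu⟩ := h j
  obtain ⟨k, rfl⟩ := exists_pow_eq_of_orderOf (hprime j) (hg j) u
  have h1 : g j ^ (k * p ^ padicValNat p (qq j - 1) + (e j : ℕ)) = g j ^ (e' j : ℕ) := by
    rw [pow_add, pow_mul, hu]
    simp
  rw [pow_eq_pow_iff_modEq, hg j] at h1
  have hdvd : p ^ padicValNat p (qq j - 1) ∣ qq j - 1 := pow_padicValNat_dvd
  have h2 : (k * p ^ padicValNat p (qq j - 1) + (e j : ℕ)) ≡ (e' j : ℕ)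
      [MOD p ^ padicValNat p (qq j - 1)] := h1.of_dvd hdvd
  have h3 : ((e j : ℕ)) ≡ (e' j : ℕ) [MOD p ^ padicValNat p (qq j - 1)] := by
    have h4 : (k * p ^ padicValNat p (qq j - 1) + (e j : ℕ)) ≡ (e j : ℕ)
        [MOD p ^ padicValNat p (qq j - 1)] := by
      unfold Nat.ModEq
      rw [Nat.mul_add_mod_of_lt (e j).2]
      exact (Nat.mod_eq_of_lt (e j).2).symm
    exact h4.symm.trans h2
  apply Fin.ext
  unfold Nat.ModEq at h3
  rw [Nat.mod_eq_of_lt (e j).2, Nat.mod_eq_of_lt (e' j).2] at h3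
  exact h3

theorem gEps_surjective483 [hp : Fact p.Prime] (hprime : ∀ s, (qq s).Prime)
    (g : ∀ s : ι, (ZMod (qq s))ˣ) (hg : ∀ s, orderOf (g s) = qq s - 1) :
    Function.Surjective (gEps483 p qq g) := by
  intro d
  obtain ⟨a, rfl⟩ := QuotientGroup.mk_surjective d
  have hk : ∀ j, ∃ k : ℕ, g j ^ k = a j := fun j =>
    exists_pow_eq_of_orderOf (hprime j) (hg j) (a j)
  choose k hk using hk
  have hpos : ∀ j, 0 < p ^ padicValNat p (qq j - 1) := fun j => pow_pos hp.out.pos _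
  refine ⟨fun j => ⟨k j % p ^ padicValNat p (qq j - 1), Nat.mod_lt _ (hpos j)⟩, ?_⟩
  unfold gEps483
  rw [QuotientGroup.eq, mem_gPowSub_iff483]
  intro j
  refine ⟨g j ^ (k j / p ^ padicValNat p (qq j - 1)), ?_⟩
  show _ = ((fun j => g j ^ (k j % p ^ padicValNat p (qq j - 1)))⁻¹ * a) j
  rw [Pi.mul_apply, Pi.inv_apply, ← hk j, ← pow_mul, eq_inv_mul_iff_mul_eq, ← pow_add]
  congr 1
  rw [mul_comm]
  exact Nat.mod_add_div _ _

theorem gEps_bijective483 [Fact p.Prime] (hprime : ∀ s, (qq s).Prime)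
    (g : ∀ s : ι, (ZMod (qq s))ˣ) (hg : ∀ s, orderOf (g s) = qq s - 1) :
    Function.Bijective (gEps483 p qq g) :=
  ⟨gEps_injective483 p qq hprime g hg, gEps_surjective483 p qq hprime g hg⟩

omit [Fintype ι] in
/-- Primitive roots exist. -/
theorem exists_primitive_roots483 (hprime : ∀ s, (qq s).Prime) :
    ∃ g : ∀ s : ι, (ZMod (qq s))ˣ, ∀ s, orderOf (g s) = qq s - 1 := by
  have h : ∀ j, ∃ g : (ZMod (qq j))ˣ, orderOf g = qq j - 1 := by
    intro j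
    have : Fact (qq j).Prime := ⟨hprime j⟩
    obtain ⟨g, hg⟩ := IsCyclic.exists_generator (α := (ZMod (qq j))ˣ)
    refine ⟨g, ?_⟩
    rw [orderOf_eq_card_of_forall_mem_zpowers hg, Nat.card_eq_fintype_card, ZMod.card_units]
  choose g hg using h
  exact ⟨g, hg⟩

end Idx

/-! ## The dictionary with block M-FREE -/

section Kappa

variable (p N₀ : ℕ) {ι : Type} [Fintype ι] (qq : ι → ℕ)

theorem gKappa_trivial483 (γ : Gamma0 (gLevel N₀ qq))
    (h : ((((γ : SL(2, ℤ)) 1 1 : ℤ)) : ZMod (gLevel N₀ qq)) = 1) : gKappa p N₀ qq γ = 1 := by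
  have h1 : dUnit (gLevel N₀ qq) γ = 1 := by
    apply Units.ext
    rw [coe_dUnit, h, Units.val_one]
  unfold gKappa
  rw [MonoidHom.comp_apply, h1, map_one]

theorem gKappa_apply483 (γ : Gamma0 (gLevel N₀ qq)) :
    gKappa p N₀ qq γ = gChi p N₀ qq (dUnit (gLevel N₀ qq) γ) := rfl

theorem gChi_mk483 (u : (ZMod (gLevel N₀ qq))ˣ) :
    gChi p N₀ qq u = QuotientGroup.mk (gRed N₀ qq u) := rfl

theorem gKappa_surjective483 [NeZero (gLevel N₀ qq)]
    (hsurj : Function.Surjective (gRed N₀ qq)) : Function.Surjective (gKappa p N₀ qq) := by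
  intro d
  obtain ⟨a, rfl⟩ := QuotientGroup.mk_surjective d
  obtain ⟨u, rfl⟩ := hsurj a
  obtain ⟨γ, rfl⟩ := dUnit_surjective u
  exact ⟨γ, rfl⟩

/-- The diamond operator `⟨a⟩` of `K` in the vocabulary of block M-FREE. -/
theorem diamondU_gLift_eq_conjAct483 [NeZero (gLevel N₀ qq)]
    (hsurj : Function.Surjective (gRed N₀ qq)) {A : Type} [AddCommGroup A]
    (a : ∀ s : ι, (ZMod (qq s))ˣ) (γ : Gamma0 (gLevel N₀ qq))
    (hγ : gKappa p N₀ qq γ = (QuotientGroup.mk a)⁻¹)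
    (x : Additive (kerSub (gKappa p N₀ qq)) →+ A) :
    diamondU (isMid_KG p N₀ qq) (gLift N₀ qq a) x = conjAct (gKappa p N₀ qq) γ x := by
  rw [conjAct_eq_diamond (gKappa p N₀ qq) (gKappa_trivial483 p N₀ qq) γ x]
  rw [diamond_eq_diamondU]
  apply diamondU_eq_of_gChi
  have h1 : gChi p N₀ qq (gLift N₀ qq a) = QuotientGroup.mk a := by
    rw [gChi_mk483, gRed_gLift N₀ qq (hsurj a)]
  have h2 : gChi p N₀ qq (dUnit (gLevel N₀ qq) γ⁻¹) = QuotientGroup.mk a := by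
    rw [← gKappa_apply483, map_inv, hγ]
    exact inv_inv (QuotientGroup.mk a : GDelta p qq)
  exact h1.trans h2.symm

end Kappa

/-! ## `cor` and the Hecke operators -/

section CorHecke

variable (p N₀ : ℕ) {ι : Type} [Fintype ι] (qq : ι → ℕ) {A : Type} [AddCommGroup A]

/-- `cor` commutes with `U_q`, `q ∣ M`. -/
theorem coresK_UK_G483 {q : ℕ} [Fact q.Prime] (hq : q ∣ gLevel N₀ qq)
    (x : Additive (KG p N₀ qq) →+ A) :
    coresK (isMid_KG p N₀ qq).le (UK (KG p N₀ qq) q x) =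
      UK (Gamma0 (gLevel N₀ qq)) q (coresK (isMid_KG p N₀ qq).le x) :=
  cor_UqKer (gKappa p N₀ qq) (gKappa_trivial483 p N₀ qq) hq x

/-- `cor` commutes with `T_ℓ`, `ℓ ∤ M`. -/
theorem coresK_TK_G483 {ℓ : ℕ} [Fact ℓ.Prime] (hℓ : ¬ ℓ ∣ gLevel N₀ qq)
    (x : Additive (KG p N₀ qq) →+ A) :
    coresK (isMid_KG p N₀ qq).le (TK (gLevel N₀ qq) (KG p N₀ qq) ℓ x) =
      TK (gLevel N₀ qq) (Gamma0 (gLevel N₀ qq)) ℓ (coresK (isMid_KG p N₀ qq).le x) := by
  have h1 := cor_transfer (gKappa p N₀ qq) (gKappa_trivial483 p N₀ qq) (repsT_system0 hℓ)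
    (isNormRep_repsT hℓ) x
  rw [TK_eq (isMid_KG p N₀ qq) hℓ, TK_eq (isMid_Gamma0 _) hℓ]
  exact h1

end CorHecke

/-! ## The control statement for `cor` -/

section Main

variable {p : ℕ} [hp : Fact p.Prime] (N₀ : ℕ) [hN₀ : NeZero N₀] {ι : Type} [Fintype ι]
  (qq : ι → ℕ) (hprime : ∀ s, (qq s).Prime) (hinj : Function.Injective qq)
  (𝒪 : Type) [CommRing 𝒪] [IsDomain 𝒪] [CharZero 𝒪]

include hp hN₀ hprime hinj in
/-- **COR** for a family indexed by a finite type and a basis indexed by any `ε : E → ∏ (ℤ/qq s)ˣ`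
inducing a bijection `E → Δ`. -/
theorem cor_ctrl_G483
    (V : Submodule 𝒪 (Additive (KG p N₀ qq) →+ 𝒪))
    (W : Submodule 𝒪 (Additive (Gamma0 (gLevel N₀ qq)) →+ 𝒪))
    (hVdia : ∀ (a : ∀ s : ι, (ZMod (qq s))ˣ), ∀ x ∈ V,
      diamondU (isMid_KG p N₀ qq) (gLift N₀ qq a) x ∈ V)
    {E : Type} [Fintype E] (ε : E → ∀ s : ι, (ZMod (qq s))ˣ)
    (hε : Function.Bijective (fun e => (QuotientGroup.mk (ε e) : GDelta p qq)))
    {d : ℕ} (b : Fin d → V)
    (hb : ∀ y : V, ∃! c : Fin d → E → 𝒪,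
      (y : Additive (KG p N₀ qq) →+ 𝒪) =
        ∑ i, ∑ e, c i e • diamondU (isMid_KG p N₀ qq) (gLift N₀ qq (ε e)) (b i))
    (hcor : ∀ x ∈ V, coresK (isMid_KG p N₀ qq).le x ∈ W)
    (hres : ∀ y ∈ W, resK (isMid_KG p N₀ qq).le y ∈ V) :
    ∃ c : V →ₗ[𝒪] W, Function.Surjective c ∧
      (∀ v : V, ((c v : W) : Additive (Gamma0 (gLevel N₀ qq)) →+ 𝒪) =
        coresK (isMid_KG p N₀ qq).le (v : Additive (KG p N₀ qq) →+ 𝒪)) ∧
      ∀ y : V, c y = 0 ↔ y ∈ AddSubgroup.closure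
        {z : V | ∃ (a : ∀ s : ι, (ZMod (qq s))ˣ) (y' : V),
          (z : Additive (KG p N₀ qq) →+ 𝒪) =
            diamondU (isMid_KG p N₀ qq) (gLift N₀ qq a) (y' : Additive (KG p N₀ qq) →+ 𝒪) -
              (y' : Additive (KG p N₀ qq) →+ 𝒪)} := by
  classical
  have hM : NeZero (gLevel N₀ qq) := ⟨gLevel_ne_zero N₀ qq (NeZero.ne N₀) hprime⟩
  have hsurj := gRed_surjective N₀ qq (NeZero.ne N₀) hinj hprime
  have hκ := gKappa_surjective483 p N₀ qq hsurj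
  have hNZ : ∀ s, NeZero (qq s) := fun s => ⟨(hprime s).ne_zero⟩
  have hfin : Finite (GDelta p qq) := inferInstance
  let _ : Fintype (GDelta p qq) := Fintype.ofFinite _
  let s : GDelta p qq → Gamma0 (gLevel N₀ qq) := Function.surjInv hκ
  have hs : ∀ d, gKappa p N₀ qq (s d) = d := Function.surjInv_eq hκ
  -- the diamond operators in the vocabulary of M-FREE
  have hdia : ∀ (a : ∀ s : ι, (ZMod (qq s))ˣ)
      (x : Additive (kerSub (gKappa p N₀ qq)) →+ 𝒪),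
      diamondU (isMid_KG p N₀ qq) (gLift N₀ qq a) x =
        conjAct (gKappa p N₀ qq) (s (QuotientGroup.mk a : GDelta p qq)⁻¹) x := fun a x =>
    diamondU_gLift_eq_conjAct483 p N₀ qq hsurj a _ (hs _) x
  have hdiaF : ∀ (a : ∀ s : ι, (ZMod (qq s))ˣ),
      (diamondU (isMid_KG p N₀ qq) (gLift N₀ qq a) :
        (Additive (KG p N₀ qq) →+ 𝒪) → (Additive (KG p N₀ qq) →+ 𝒪)) =
      fun x => conjAct (gKappa p N₀ qq) (s (QuotientGroup.mk a : GDelta p qq)⁻¹) x :=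
    fun a => funext fun x => hdia a x
  have hconj : ∀ (γ : Gamma0 (gLevel N₀ qq)) (x : Additive (kerSub (gKappa p N₀ qq)) →+ 𝒪),
      ∃ a : ∀ s : ι, (ZMod (qq s))ˣ,
        conjAct (gKappa p N₀ qq) γ x = diamondU (isMid_KG p N₀ qq) (gLift N₀ qq a) x := by
    intro γ x
    obtain ⟨a', ha'⟩ := QuotientGroup.mk_surjective (gKappa p N₀ qq γ)
    refine ⟨a'⁻¹, ?_⟩
    have h3 : gKappa p N₀ qq γ = (QuotientGroup.mk (a'⁻¹) : GDelta p qq)⁻¹ := by
      rw [← ha']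
      exact (inv_inv (QuotientGroup.mk a' : GDelta p qq)).symm
    rw [diamondU_gLift_eq_conjAct483 p N₀ qq hsurj a'⁻¹ γ h3 x]
  -- the basis
  have hεbij : Function.Bijective (fun e => ((QuotientGroup.mk (ε e) : GDelta p qq))⁻¹) :=
    (Equiv.inv (GDelta p qq)).bijective.comp hε
  have hb' : ∀ y ∈ V, ∃! c : Fin d → GDelta p qq → 𝒪,
      y = ∑ i, ∑ g', c i g' •
        conjAct (gKappa p N₀ qq) (s g') ((b i : V) : Additive (KG p N₀ qq) →+ 𝒪) := by
    intro y hy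
    have h1 := hb ⟨y, hy⟩
    simp only [hdiaF] at h1
    exact basis_transport_h762 (fun d' => conjLin_h762 (gKappa p N₀ qq) 𝒪 (s d'))
      (fun e => ((QuotientGroup.mk (ε e) : GDelta p qq))⁻¹) hεbij
      (fun i => ((b i : V) : Additive (KG p N₀ qq) →+ 𝒪)) h1
  have hsurjW := fun (w : Additive (Gamma0 (gLevel N₀ qq)) →+ 𝒪) (hw : w ∈ W) =>
    cor_surj_gen_h762 (gKappa p N₀ qq) hκ 𝒪 V W hres
      (fun i => ((b i : V) : Additive (KG p N₀ qq) →+ 𝒪)) (fun i => (b i).2) s hs hb' hw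
  have hkerV := fun (v : Additive (KG p N₀ qq) →+ 𝒪) (hv : v ∈ V) =>
    cor_ker_gen_h762 (gKappa p N₀ qq) 𝒪 V
      (fun i => ((b i : V) : Additive (KG p N₀ qq) →+ 𝒪)) (fun i => (b i).2) s hs hb' hv
  -- the map
  refine ⟨LinearMap.codRestrict W ((corLin_h762 (gKappa p N₀ qq) 𝒪).comp V.subtype)
    (fun v => hcor v v.2), ?_, fun v => rfl, ?_⟩
  · rintro ⟨w, hw⟩
    obtain ⟨v, hv, hvw⟩ := hsurjW w hw
    exact ⟨⟨v, hv⟩, Subtype.ext hvw⟩
  · intro y
    have h0 : (LinearMap.codRestrict W ((corLin_h762 (gKappa p N₀ qq) 𝒪).comp V.subtype)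
        (fun v => hcor v v.2) y = 0) ↔
        cor (gKappa p N₀ qq) (y : Additive (KG p N₀ qq) →+ 𝒪) = 0 := by
      constructor
      · intro h
        exact congrArg Subtype.val h
      · intro h
        exact Subtype.ext h
    rw [h0, hkerV y y.2]
    -- comparison of the two closures
    have hSXV : ∀ x ∈ {z : Additive (KG p N₀ qq) →+ 𝒪 |
        ∃ (γ : Gamma0 (gLevel N₀ qq)) (y' : Additive (kerSub (gKappa p N₀ qq)) →+ 𝒪),
          y' ∈ V ∧ z = conjAct (gKappa p N₀ qq) γ y' - y'}, x ∈ V := by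
      rintro x ⟨γ, y', hy', rfl⟩
      obtain ⟨a, ha⟩ := hconj γ y'
      have h5 := V.sub_mem (hVdia a y' hy') hy'
      rw [← ha] at h5
      exact h5
    have h6 := closure_subtype_iff_h762 V _ hSXV y
    refine h6.trans ?_
    have hset : {z : V | (z : Additive (KG p N₀ qq) →+ 𝒪) ∈
        {z : Additive (KG p N₀ qq) →+ 𝒪 |
          ∃ (γ : Gamma0 (gLevel N₀ qq)) (y' : Additive (kerSub (gKappa p N₀ qq)) →+ 𝒪),
            y' ∈ V ∧ z = conjAct (gKappa p N₀ qq) γ y' - y'}} =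
        {z : V | ∃ (a : ∀ s : ι, (ZMod (qq s))ˣ) (y' : V),
          (z : Additive (KG p N₀ qq) →+ 𝒪) =
            diamondU (isMid_KG p N₀ qq) (gLift N₀ qq a) (y' : Additive (KG p N₀ qq) →+ 𝒪) -
              (y' : Additive (KG p N₀ qq) →+ 𝒪)} := by
      ext z
      constructor
      · rintro ⟨γ, y', hy', hz⟩
        obtain ⟨a, ha⟩ := hconj γ y'
        exact ⟨a, ⟨y', hy'⟩, hz.trans (congrArg (fun w => w - y') ha)⟩
      · rintro ⟨a, y', hz⟩
        exact ⟨s (QuotientGroup.mk a : GDelta p qq)⁻¹, (y' : Additive (KG p N₀ qq) →+ 𝒪), y'.2,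
          hz.trans (congrArg (fun w => w - (y' : Additive (KG p N₀ qq) →+ 𝒪))
            (hdia a (y' : Additive (KG p N₀ qq) →+ 𝒪)))⟩
    rw [hset]

end Main

end Fermat.Agent.S38.H483
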