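import Fermat.Agent.S38.IA.Hecke.Spec3

/-!
# Row HARD, cell HECKE, layer 3, algebra leaf IA-RANK (helper483)

`iaRank483 : IARankStatement` VERBATIM.  If `V` has an `𝒪`-basis `ρ(γ e) b_i` (`i < d'`,
`e ∈ E`) permuted by the action `ρ` of `D`, and `π : V → V₀` is onto with kernel the augmentation
submodule, then the `π (b i)` form a basis of `V₀`, so `d' = d` for any basis of `V₀` indexed by
`Fin d`.
-/

set_option autoImplicit false

namespace Fermat.Agent.S38.H483

open Fermat.Agent.S38.IA.Hecke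

theorem iaRank483 : IARankStatement := by
  intro 𝒪 _ _ V V₀ _ _ _ _ D _ ρ E _ γ hperm hone d' b hb π hsurj hker d hd
  classical
  obtain ⟨e₀, he₀⟩ := hone
  -- the parametrisation `Φ`
  let Φ : (Fin d' → E → 𝒪) →ₗ[𝒪] V :=
    { toFun := fun c => ∑ i, ∑ e, c i e • ρ (γ e) (b i)
      map_add' := fun c c' => by
        simp only [Pi.add_apply, add_smul, Finset.sum_add_distrib]
      map_smul' := fun t c => by
        simp only [Pi.smul_apply, smul_eq_mul, mul_smul, Finset.smul_sum, RingHom.id_apply] }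
  have hΦ : ∀ c, Φ c = ∑ i, ∑ e, c i e • ρ (γ e) (b i) := fun _ => rfl
  have hΦbij : Function.Bijective Φ := by
    constructor
    · intro c c' hcc
      obtain ⟨c₀, -, huniq⟩ := hb (Φ c)
      rw [huniq c (hΦ c), huniq c' (by rw [hcc]; exact hΦ c')]
    · intro y
      obtain ⟨c, hc, -⟩ := hb y
      exact ⟨c, hc.symm⟩
  -- `π` kills the augmentation
  have hπaug : ∀ (a : D) (y : V), π (ρ a y) = π y := by
    intro a y
    have h1 : π (ρ a y - y) = 0 :=
      (hker _).mpr (AddSubgroup.subset_closure ⟨a, y, rfl⟩)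
    rwa [map_sub, sub_eq_zero] at h1
  -- the augmentation functional
  let ε : (Fin d' → E → 𝒪) →+ (Fin d' → 𝒪) :=
    { toFun := fun c i => ∑ e, c i e
      map_zero' := by ext i; simp
      map_add' := fun c c' => by ext i; simp [Finset.sum_add_distrib] }
  have hε : ∀ c i, ε c i = ∑ e, c i e := fun _ _ => rfl
  let Ψ := LinearEquiv.ofBijective Φ hΦbij
  have hΨ : ∀ c, Ψ c = Φ c := fun _ => rfl
  let εV : V →+ (Fin d' → 𝒪) := ε.comp (Ψ.symm : V →ₗ[𝒪] (Fin d' → E → 𝒪)).toAddMonoidHom
  have hεV : ∀ c, εV (Φ c) = ε c := by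
    intro c
    change ε (Ψ.symm (Φ c)) = ε c
    rw [← hΨ, LinearEquiv.symm_apply_apply]
  -- `ρ a` preserves the augmentation functional
  have hερ : ∀ (a : D) (y : V), εV (ρ a y) = εV y := by
    intro a y
    obtain ⟨c, rfl⟩ := hΦbij.2 y
    choose σ hσ using hperm a
    have h1 : ρ a (Φ c) = Φ (fun i e'' => ∑ e, if σ e = e'' then c i e else 0) := by
      rw [hΦ, hΦ, map_sum]
      refine Finset.sum_congr rfl fun i _ => ?_
      rw [map_sum]
      have h2 : ∀ e, ρ a (c i e • ρ (γ e) (b i)) = c i e • ρ (γ (σ e)) (b i) := by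
        intro e
        rw [map_smul, ← hσ e, map_mul]
        rfl
      simp only [h2, Finset.sum_smul, ite_smul, zero_smul]
      rw [Finset.sum_comm]
      refine Finset.sum_congr rfl fun e _ => ?_
      rw [Finset.sum_ite_eq]
      simp
    rw [h1, hεV, hεV]
    ext i
    rw [hε, hε, Finset.sum_comm]
    refine Finset.sum_congr rfl fun e _ => ?_
    rw [Finset.sum_ite_eq]
    simp
  have hεaug : ∀ y : V, π y = 0 → εV y = 0 := by
    intro y hy
    have h1 := (hker y).mp hy
    have h2 : AddSubgroup.closure {z : V | ∃ (a : D) (y' : V), z = ρ a y' - y'} ≤ εV.ker := by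
      rw [AddSubgroup.closure_le]
      rintro z ⟨a, y', rfl⟩
      change εV (ρ a y' - y') = 0
      rw [map_sub, hερ, sub_self]
    exact h2 h1
  -- the images `π (b i)` form a basis
  have hbΦ : ∀ g : Fin d' → 𝒪, ∑ i, g i • b i = Φ (fun i e => if e = e₀ then g i else 0) := by
    intro g
    rw [hΦ]
    refine Finset.sum_congr rfl fun i _ => ?_
    simp only [ite_smul, zero_smul]
    rw [Finset.sum_ite_eq']
    simp [he₀]
  have hli : LinearIndependent 𝒪 (fun i => π (b i)) := by
    rw [Fintype.linearIndependent_iff]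
    intro g hg i
    have h1 : π (∑ j, g j • b j) = 0 := by
      rw [map_sum]
      simpa only [map_smul] using hg
    have h2 := hεaug _ h1
    rw [hbΦ, hεV] at h2
    have h3 := congrFun h2 i
    rw [hε] at h3
    simpa using h3
  have hsp : ⊤ ≤ Submodule.span 𝒪 (Set.range fun i => π (b i)) := by
    intro v _
    obtain ⟨y, rfl⟩ := hsurj v
    obtain ⟨c, rfl⟩ := hΦbij.2 y
    rw [hΦ, map_sum]
    refine Submodule.sum_mem _ fun i _ => ?_
    rw [map_sum]
    refine Submodule.sum_mem _ fun e _ => ?_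
    rw [map_smul, hπaug]
    exact Submodule.smul_mem _ _ (Submodule.subset_span ⟨i, rfl⟩)
  obtain ⟨B₀⟩ := hd
  have B : Module.Basis (Fin d') 𝒪 V₀ := Module.Basis.mk hli hsp
  have h := Fintype.card_congr (B.indexEquiv B₀)
  simpa using h

end Fermat.Agent.S38.H483
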